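/-
Riemann–Roch spaces of a function field over an algebraically closed field, in every characteristic:
finiteness, monotonicity, shifts by principal divisors.
-/
import Fermat.Agent.MCurve.PlaceBasics
import Fermat.Prelude.Def_AlgebraicCurve_Repartitions
import Mathlib.LinearAlgebra.FiniteDimensional.Lemmas
import Mathlib.Data.Finsupp.Order

set_option autoImplicit false
set_option linter.unusedSectionVars false

noncomputable section

namespace Fermat.Agent.MCurve.RR

open AlgebraicCurve

variable {K F : Type*} [Field K] [Field F] [Algebra K F]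

/-- The dimension of a Riemann–Roch space. -/
abbrev ell (D : Divisor K F) : ℕ := Module.finrank K (riemannRochSpace D)

/-- The deficit of a divisor in Riemann's inequality. -/
abbrev deficit (D : Divisor K F) : ℤ := Divisor.degree D + 1 - ell D

theorem mem_space_iff {D : Divisor K F} {f : F} :
    f ∈ riemannRochSpace D ↔ f = 0 ∨ ∀ v : Place K F, -D v ≤ v.ord f := by
  rw [mem_riemannRochSpace_iff]
  rcases eq_or_ne f 0 with h | h <;> simp [h]

theorem space_mono {D E : Divisor K F} (h : D ≤ E) : riemannRochSpace D ≤ riemannRochSpace E :=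
  fun f hf => mem_space_iff.mpr ((mem_space_iff.mp hf).imp id fun h' v => by
    have := Finsupp.le_def.mp h v
    have := h' v
    omega)

theorem mul_mem_space {D E : Divisor K F} {f g : F} (hf : f ∈ riemannRochSpace D)
    (hg : g ∈ riemannRochSpace E) : f * g ∈ riemannRochSpace (D + E) := by
  rcases eq_or_ne f 0 with rfl | hf0
  · simp
  rcases eq_or_ne g 0 with rfl | hg0
  · simp
  refine mem_space_iff.mpr (Or.inr fun v => ?_)
  have := ((mem_space_iff.mp hf).resolve_left hf0) v
  have := ((mem_space_iff.mp hg).resolve_left hg0) v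
  rw [Finsupp.add_apply, v.ord_mul hf0 hg0]
  omega

/-! ## Principal divisors -/

section Principal

variable [hP : HasPrincipalDivisors K F]

variable (K) in
open Classical in
/-- The divisor of a function (zero for `f = 0`). -/
def divOf (f : F) : Divisor K F := if h : f = 0 then 0 else (hP.exists_divisor f h).choose

theorem divOf_apply (f : F) (v : Place K F) : divOf K f v = v.ord f := by
  rw [divOf]
  split_ifs with h
  · simp [h]
  · exact (hP.exists_divisor f h).choose_spec.1 v

theorem degree_divOf (f : F) : Divisor.degree (divOf K f) = 0 := by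
  rw [divOf]
  split_ifs with h
  · exact map_zero _
  · exact (hP.exists_divisor f h).choose_spec.2

theorem divOf_mul {f g : F} (hf : f ≠ 0) (hg : g ≠ 0) :
    divOf K (f * g) = divOf K f + divOf K g := by
  ext v
  simp [divOf_apply, v.ord_mul hf hg]

theorem divOf_inv (f : F) : divOf K f⁻¹ = -divOf K f := by
  ext v
  simp [divOf_apply, v.ord_inv]

theorem mem_space_iff_of_ne {D : Divisor K F} {f : F} (hf : f ≠ 0) :
    f ∈ riemannRochSpace D ↔ 0 ≤ D + divOf K f := by
  rw [mem_space_iff, or_iff_right hf, Finsupp.le_def]
  refine forall_congr' fun v => ?_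
  rw [Finsupp.add_apply, divOf_apply, Finsupp.zero_apply]
  omega

theorem mem_space_divOf {D : Divisor K F} {g f : F} (hg : g ≠ 0) :
    f ∈ riemannRochSpace (D + divOf K g) ↔ g * f ∈ riemannRochSpace D := by
  rcases eq_or_ne f 0 with rfl | hf
  · simp
  rw [mem_space_iff_of_ne hf, mem_space_iff_of_ne (mul_ne_zero hg hf), divOf_mul hg hf, add_assoc]

/-- Multiplication by a function shifts a space by its divisor. -/
def shiftEquiv (D : Divisor K F) {g : F} (hg : g ≠ 0) :
    riemannRochSpace (D + divOf K g) ≃ₗ[K] riemannRochSpace D where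
  toFun f := ⟨g * f, (mem_space_divOf hg).mp f.2⟩
  invFun f := ⟨g⁻¹ * f, (mem_space_divOf hg).mpr (by rw [mul_inv_cancel_left₀ hg]; exact f.2)⟩
  map_add' f f' := by ext; simp [mul_add]
  map_smul' a f := by ext; simp
  left_inv f := by ext; simp [hg]
  right_inv f := by ext; simp [hg]

theorem ell_add_divOf (D : Divisor K F) {g : F} (hg : g ≠ 0) : ell (D + divOf K g) = ell D :=
  (shiftEquiv D hg).finrank_eq

theorem deficit_add_divOf (D : Divisor K F) {g : F} (hg : g ≠ 0) :
    deficit (D + divOf K g) = deficit D := by
  rw [deficit, deficit, ell_add_divOf D hg, map_add, degree_divOf, add_zero]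

end Principal

/-! ## Finiteness -/

variable [IsAlgClosed K] [hR : ∀ v : Place K F, v.FiniteResidue]

theorem deg_one (v : Place K F) : v.deg = 1 :=
  haveI := (hR v).finite
  v.deg_eq_one_of_isAlgClosed_of_finite

theorem degree_single_one (v : Place K F) : Divisor.degree (Finsupp.single v 1) = 1 := by
  rw [Divisor.degree_single, deg_one, Nat.cast_one, one_mul]

theorem degree_eq_sum (D : Divisor K F) : Divisor.degree D = D.sum fun _ n => n := by
  rw [Divisor.degree, Finsupp.liftAddHom_apply]
  exact Finsupp.sum_congr fun v _ => by simp [deg_one]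

theorem degree_nonneg {D : Divisor K F} (h : 0 ≤ D) : 0 ≤ Divisor.degree D := by
  rw [degree_eq_sum]
  exact Finset.sum_nonneg fun v _ => Finsupp.le_def.mp h v

theorem eq_zero_of_degree_le {D : Divisor K F} (h : 0 ≤ D) (hd : Divisor.degree D ≤ 0) : D = 0 := by
  rw [degree_eq_sum] at hd
  ext v
  by_contra hv
  have := (Finset.sum_eq_zero_iff_of_nonneg fun w _ => Finsupp.le_def.mp h w).mp
    (le_antisymm hd (Finset.sum_nonneg fun w _ => Finsupp.le_def.mp h w)) v
      (Finsupp.mem_support_iff.mpr hv)
  exact hv this

theorem degree_le_of_le {D E : Divisor K F} (h : D ≤ E) : Divisor.degree D ≤ Divisor.degree E := by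
  have := degree_nonneg (sub_nonneg.mpr h)
  rw [map_sub] at this
  omega

theorem eq_of_le_of_degree {D E : Divisor K F} (h : D ≤ E)
    (hd : Divisor.degree E ≤ Divisor.degree D) : D = E :=
  (sub_eq_zero.mp (eq_zero_of_degree_le (sub_nonneg.mpr h) (by rw [map_sub]; omega))).symm

theorem space_le_sup (D : Divisor K F) (v : Place K F) :
    ∃ f ∈ riemannRochSpace D,
      riemannRochSpace D ≤ riemannRochSpace (D - Finsupp.single v 1) ⊔ K ∙ f := by
  classical
  by_cases hall : riemannRochSpace D ≤ riemannRochSpace (D - Finsupp.single v 1)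
  · exact ⟨0, zero_mem _, hall.trans le_sup_left⟩
  obtain ⟨f, hf, hf'⟩ := SetLike.not_le_iff_exists.mp hall
  have hf0 : f ≠ 0 := fun h => hf' (h ▸ zero_mem _)
  have key : ∀ g ∈ riemannRochSpace D, g ≠ 0 → v.ord g = -D v ∨
      g ∈ riemannRochSpace (D - Finsupp.single v 1) := by
    intro g hg hg0
    by_cases hv : v.ord g = -D v
    · exact Or.inl hv
    refine Or.inr (mem_space_iff.mpr (Or.inr fun w => ?_))
    have := ((mem_space_iff.mp hg).resolve_left hg0) w
    rw [Finsupp.sub_apply, Finsupp.single_apply]
    split_ifs with h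
    · subst h; omega
    · omega
  have hfv : v.ord f = -D v := (key f hf hf0).resolve_right hf'
  refine ⟨f, hf, fun g hg => ?_⟩
  rcases eq_or_ne g 0 with rfl | hg0
  · exact zero_mem _
  rcases key g hg hg0 with hgv | hg'
  swap
  · exact Submodule.mem_sup_left hg'
  haveI := (hR v).finite
  obtain ⟨a, ha⟩ := exists_value v (f := g / f) ((mem_iff_ord_nonneg v (div_ne_zero hg0 hf0)).mpr
    (by rw [div_eq_mul_inv, v.ord_mul hg0 (inv_ne_zero hf0), v.ord_inv]; omega))
  have hsplit : g = (g - a • f) + a • f := (sub_add_cancel _ _).symm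
  rw [hsplit]
  refine add_mem (Submodule.mem_sup_left ?_)
    (Submodule.mem_sup_right (Submodule.smul_mem _ a (Submodule.mem_span_singleton_self f)))
  have hd : g - a • f ∈ riemannRochSpace D := sub_mem hg (Submodule.smul_mem _ a hf)
  rcases eq_or_ne (g - a • f) 0 with h0 | h0
  · rw [h0]; exact zero_mem _
  refine (key _ hd h0).resolve_left fun hv => ?_
  rcases ha with ha | ha
  · exact h0 (by rw [Algebra.smul_def, ← ha, div_mul_cancel₀ _ hf0, sub_self])
  · have e : g - a • f = (g / f - algebraMap K F a) * f := by
      rw [sub_mul, div_mul_cancel₀ _ hf0, Algebra.smul_def]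
    rw [e, v.ord_mul (fun h => by rw [e, h, zero_mul] at h0; exact h0 rfl) hf0, hfv] at hv
    omega

variable [HasPrincipalDivisors K F]

theorem space_eq_bot_of_degree_neg {D : Divisor K F} (h : Divisor.degree D < 0) :
    riemannRochSpace D = ⊥ := by
  refine (Submodule.eq_bot_iff _).mpr fun f hf => ?_
  by_contra hf0
  have := degree_nonneg ((mem_space_iff_of_ne hf0).mp hf)
  rw [map_add, degree_divOf] at this
  omega

variable [Nonempty (Place K F)]

instance finite_space (D : Divisor K F) : Module.Finite K (riemannRochSpace D) := by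
  obtain ⟨v⟩ := ‹Nonempty (Place K F)›
  suffices h : ∀ (n : ℕ) (D : Divisor K F), Divisor.degree D < n →
      Module.Finite K (riemannRochSpace D) from
    h ((Divisor.degree D).toNat + 1) D (by omega)
  intro n
  induction n with
  | zero => exact fun D hD => by rw [space_eq_bot_of_degree_neg (by simpa using hD)]; infer_instance
  | succ n ih =>
    intro D hD
    obtain ⟨f, -, hle⟩ := space_le_sup D v
    haveI := ih (D - Finsupp.single v 1) (by rw [map_sub, degree_single_one]; push_cast at hD ⊢; omega)
    exact Submodule.finiteDimensional_of_le hle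

theorem ell_le_succ (D : Divisor K F) (v : Place K F) :
    ell D ≤ ell (D - Finsupp.single v 1) + 1 := by
  obtain ⟨f, -, hle⟩ := space_le_sup D v
  refine (Submodule.finrank_mono hle).trans ((Submodule.finrank_add_le_finrank_add_finrank _ _).trans
    (Nat.add_le_add_left ?_ _))
  rcases eq_or_ne f 0 with rfl | hf
  · rw [Submodule.span_singleton_eq_bot.mpr rfl, finrank_bot]; exact Nat.zero_le _
  · rw [finrank_span_singleton hf]

theorem ell_mono {D E : Divisor K F} (h : D ≤ E) : ell D ≤ ell E :=
  Submodule.finrank_mono (space_mono h)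

theorem ell_le_add {D E : Divisor K F} (h : D ≤ E) :
    (ell E : ℤ) ≤ ell D + (Divisor.degree E - Divisor.degree D) := by
  suffices key : ∀ (n : ℕ) (E : Divisor K F), D ≤ E → Divisor.degree E - Divisor.degree D ≤ n →
      (ell E : ℤ) ≤ ell D + (Divisor.degree E - Divisor.degree D) from
    key (Divisor.degree E - Divisor.degree D).toNat E h (Int.self_le_toNat _)
  intro n
  induction n with
  | zero =>
    intro E hE hd
    rw [← eq_of_le_of_degree hE (by push_cast at hd; omega)]
    omega
  | succ n ih =>
    intro E hE hd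
    by_cases heq : D = E
    · rw [heq]; omega
    obtain ⟨v, hv⟩ : ∃ v, D v ≠ E v := by
      by_contra hne
      exact heq (Finsupp.ext fun v => not_not.mp (not_exists.mp hne v))
    have hle : D ≤ E - Finsupp.single v 1 := Finsupp.le_def.mpr fun w => by
      classical
      have := Finsupp.le_def.mp hE w
      rw [Finsupp.sub_apply, Finsupp.single_apply]
      split_ifs with h
      · subst h; omega
      · omega
    have h2 := ih _ hle (by rw [map_sub, degree_single_one]; push_cast at hd; omega)
    have h3 := ell_le_succ E v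
    rw [map_sub, degree_single_one] at h2
    omega

theorem deficit_mono {D E : Divisor K F} (h : D ≤ E) : deficit D ≤ deficit E := by
  have := ell_le_add h
  simp only [deficit]
  omega

theorem ell_le_degree_succ {D : Divisor K F} (h : 0 ≤ Divisor.degree D) :
    (ell D : ℤ) ≤ Divisor.degree D + 1 := by
  obtain ⟨v⟩ := ‹Nonempty (Place K F)›
  have h1 := ell_le_add (D := D - Finsupp.single v (Divisor.degree D + 1)) (E := D)
    (sub_le_self _ (Finsupp.single_nonneg.mpr (by omega)))
  have hd : Divisor.degree (D - Finsupp.single v (Divisor.degree D + 1)) = -1 := by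
    rw [map_sub, Divisor.degree_single, deg_one]; simp
  have h0 : ell (D - Finsupp.single v (Divisor.degree D + 1)) = 0 := by
    rw [ell, space_eq_bot_of_degree_neg (by omega), finrank_bot]
  omega

/-- Regular functions are constants. -/
theorem exists_const_of_mem_zero {f : F} (hf : f ∈ riemannRochSpace (0 : Divisor K F)) :
    ∃ a : K, algebraMap K F a = f := by
  have h1 : (1 : F) ∈ riemannRochSpace (0 : Divisor K F) :=
    mem_space_iff.mpr (Or.inr fun v => by simp)
  have hle : K ∙ (1 : F) ≤ riemannRochSpace (0 : Divisor K F) :=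
    (Submodule.span_singleton_le_iff_mem _ _).mpr h1
  have hd := ell_le_degree_succ (D := (0 : Divisor K F)) (by simp)
  rw [map_zero] at hd
  have heq := Submodule.eq_of_le_of_finrank_le hle (by
    rw [finrank_span_singleton (one_ne_zero (α := F))]
    show ell _ ≤ 1
    omega)
  rw [← heq, Submodule.mem_span_singleton] at hf
  obtain ⟨a, ha⟩ := hf
  exact ⟨a, by rw [← ha, Algebra.smul_def, mul_one]⟩

end Fermat.Agent.MCurve.RR
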