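/-
A field finite over `K(x)`, `K` algebraically closed of any characteristic, is the function field of
a curve: approximation at finitely many places, the degree of the poles of `x`, principal divisors.
-/
import Fermat.Agent.MCurve.RiemannRoch.Basic
import Fermat.Agent.MCurve.PlaceExists

set_option autoImplicit false
set_option linter.unusedSectionVars false

noncomputable section

namespace Fermat.Agent.MCurve.RR

open AlgebraicCurve IntermediateField

variable {K F : Type*} [Field K] [Field F] [Algebra K F]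

/-! ## Approximation at finitely many places -/

theorem exists_sep_two {v w : Place K F} (h : v ≠ w) :
    ∃ z : F, z ≠ 0 ∧ v.ord z < 0 ∧ 0 < w.ord z := by
  obtain ⟨a, haw, hav⟩ := SetLike.not_le_iff_exists.mp fun hle => h.symm (place_eq_of_le hle)
  obtain ⟨b, hbv, hbw⟩ := SetLike.not_le_iff_exists.mp fun hle => h (place_eq_of_le hle)
  have ha0 : a ≠ 0 := fun h => hav (h ▸ zero_mem _)
  have hb0 : b ≠ 0 := fun h => hbw (h ▸ zero_mem _)
  rw [mem_iff_ord_nonneg _ ha0] at haw hav
  rw [mem_iff_ord_nonneg _ hb0] at hbv hbw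
  refine ⟨a / b, div_ne_zero ha0 hb0, ?_, ?_⟩ <;>
    rw [div_eq_mul_inv, Place.ord_mul _ ha0 (inv_ne_zero hb0), Place.ord_inv] <;> omega

/-- A function with a pole at one place and zeros at finitely many others. -/
theorem exists_sep (v : Place K F) (s : Finset (Place K F)) (hs : v ∉ s) :
    ∃ z : F, z ≠ 0 ∧ v.ord z < 0 ∧ ∀ w ∈ s, 0 < w.ord z := by
  classical
  induction s using Finset.induction with
  | empty =>
    obtain ⟨π, hπ, h1⟩ := exists_ord_eq_one v
    exact ⟨π⁻¹, inv_ne_zero hπ, by rw [v.ord_inv]; omega, by simp⟩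
  | insert w s hw ih =>
    rw [Finset.mem_insert, not_or] at hs
    obtain ⟨z, hz, hzv, hzs⟩ := ih hs.2
    obtain ⟨z', hz', hzv', hzw'⟩ := exists_sep_two hs.1
    by_cases hpos : 0 < w.ord z
    · exact ⟨z, hz, hzv, fun u hu => (Finset.mem_insert.mp hu).elim (fun h => h ▸ hpos) (hzs u)⟩
    -- a large power of `z` beats `z'` on `s`
    obtain ⟨m, hm0, hm⟩ : ∃ m : ℕ, 0 < m ∧ ∀ u ∈ s, 0 < (m : ℤ) + u.ord z' := by
      refine ⟨∑ u ∈ s, (u.ord z').natAbs + 1, by omega, fun u hu => ?_⟩
      have := Finset.single_le_sum (f := fun u : Place K F => (u.ord z').natAbs)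
        (fun _ _ => Nat.zero_le _) hu
      omega
    have hle : ∀ u ∈ s, 0 < (m : ℤ) * u.ord z + u.ord z' := fun u hu => by
      have := hm u hu
      have : (m : ℤ) * 1 ≤ (m : ℤ) * u.ord z :=
        mul_le_mul_of_nonneg_left (hzs u hu) (Int.natCast_nonneg m)
      omega
    rcases lt_or_eq_of_le (not_lt.mp hpos) with hneg | h0
    · -- `z` has poles at both places
      have hzm : z ^ m ≠ 0 := pow_ne_zero m hz
      have hv1 : v.ord (z ^ m + 1) = v.ord (z ^ m) := ord_add_eq v hzm one_ne_zero (by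
        rw [v.ord_one, ord_pow]; exact mul_neg_of_pos_of_neg (by exact_mod_cast hm0) hzv)
      have hw1 : w.ord (z ^ m + 1) = w.ord (z ^ m) := ord_add_eq w hzm one_ne_zero (by
        rw [w.ord_one, ord_pow]; exact mul_neg_of_pos_of_neg (by exact_mod_cast hm0) hneg)
      have hs1 : ∀ u ∈ s, u.ord (z ^ m + 1) = 0 := fun u hu => by
        rw [add_comm, ord_add_eq u one_ne_zero hzm (by
          rw [u.ord_one, ord_pow]; exact mul_pos (by exact_mod_cast hm0) (hzs u hu)), u.ord_one]
      have hne : z ^ m + 1 ≠ 0 := fun h => by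
        rw [h, v.ord_zero, ord_pow] at hv1
        exact (mul_neg_of_pos_of_neg (by exact_mod_cast hm0) hzv).ne hv1.symm
      refine ⟨z ^ m * (z ^ m + 1)⁻¹ * z', mul_ne_zero (mul_ne_zero hzm (inv_ne_zero hne)) hz',
        ?_, fun u hu => ?_⟩
      · rw [v.ord_mul (mul_ne_zero hzm (inv_ne_zero hne)) hz', v.ord_mul hzm (inv_ne_zero hne),
          v.ord_inv, hv1]
        omega
      · rw [u.ord_mul (mul_ne_zero hzm (inv_ne_zero hne)) hz', u.ord_mul hzm (inv_ne_zero hne),
          u.ord_inv]
        rcases Finset.mem_insert.mp hu with rfl | hu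
        · rw [hw1]; omega
        · rw [hs1 u hu, ord_pow]; have := hle u hu; omega
    · -- `z` is a unit at the new place
      refine ⟨z ^ m * z', mul_ne_zero (pow_ne_zero m hz) hz', ?_, fun u hu => ?_⟩
      · rw [v.ord_mul (pow_ne_zero m hz) hz', ord_pow]
        have : (m : ℤ) * v.ord z < 0 := mul_neg_of_pos_of_neg (by exact_mod_cast hm0) hzv
        omega
      · rw [u.ord_mul (pow_ne_zero m hz) hz', ord_pow]
        rcases Finset.mem_insert.mp hu with rfl | hu
        · rw [h0, mul_zero]; omega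
        · exact hle u hu

/-- Prescribed order at one place, large orders at finitely many others. -/
theorem exists_approx (v : Place K F) (s : Finset (Place K F)) (hs : v ∉ s) (k : ℤ) (B : ℕ) :
    ∃ t : F, t ≠ 0 ∧ v.ord t = k ∧ ∀ w ∈ s, (B : ℤ) ≤ w.ord t := by
  obtain ⟨z, hz, hzv, hzs⟩ := exists_sep v s hs
  obtain ⟨π, hπ, hπv⟩ := exists_ord_eq_one v
  set m : ℕ := B + 1 + ∑ w ∈ s, (k * w.ord π).natAbs with hm
  have hzm : z ^ m ≠ 0 := pow_ne_zero m hz
  have hvneg : (m : ℤ) * v.ord z < 0 := mul_neg_of_pos_of_neg (by exact_mod_cast (by omega : 0 < m)) hzv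
  have hv1 : v.ord (z ^ m + 1) = v.ord (z ^ m) :=
    ord_add_eq v hzm one_ne_zero (by rw [v.ord_one, ord_pow]; exact hvneg)
  have hne : z ^ m + 1 ≠ 0 := fun h => by
    rw [h, v.ord_zero, ord_pow] at hv1
    omega
  refine ⟨π ^ k * (z ^ m * (z ^ m + 1)⁻¹),
    mul_ne_zero (zpow_ne_zero k hπ) (mul_ne_zero hzm (inv_ne_zero hne)), ?_, fun w hw => ?_⟩
  · rw [v.ord_mul (zpow_ne_zero k hπ) (mul_ne_zero hzm (inv_ne_zero hne)),
      v.ord_mul hzm (inv_ne_zero hne), v.ord_inv, hv1, v.ord_zpow, hπv]
    omega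
  · have hwpos : (m : ℤ) ≤ (m : ℤ) * w.ord z :=
      le_mul_of_one_le_right (Int.natCast_nonneg m) (hzs w hw)
    have hw1 : w.ord (z ^ m + 1) = 0 := by
      rw [add_comm, ord_add_eq w one_ne_zero hzm (by rw [w.ord_one, ord_pow]; omega), w.ord_one]
    rw [w.ord_mul (zpow_ne_zero k hπ) (mul_ne_zero hzm (inv_ne_zero hne)),
      w.ord_mul hzm (inv_ne_zero hne), w.ord_inv, hw1, ord_pow, w.ord_zpow]
    have := Finset.single_le_sum (f := fun w : Place K F => (k * w.ord π).natAbs)
      (fun _ _ => Nat.zero_le _) hw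
    omega

/-- A lower bound for the order of a sum. -/
theorem lt_ord_sum {ι : Type*} (s : Finset ι) (f : ι → F) (v : Place K F) {b : ℤ}
    (h : ∀ i ∈ s, f i = 0 ∨ b < v.ord (f i)) : ∑ i ∈ s, f i = 0 ∨ b < v.ord (∑ i ∈ s, f i) := by
  classical
  induction s using Finset.induction with
  | empty => simp
  | insert i s hi ih =>
    rw [Finset.sum_insert hi]
    rcases eq_or_ne (f i + ∑ j ∈ s, f j) 0 with h0 | h0
    · exact Or.inl h0
    rcases eq_or_ne (f i) 0 with h1 | h1
    · rw [h1, zero_add]; exact ih fun j hj => h j (Finset.mem_insert_of_mem hj)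
    rcases eq_or_ne (∑ j ∈ s, f j) 0 with h2 | h2
    · rw [h2, add_zero]; exact h i (Finset.mem_insert_self i s)
    refine Or.inr (lt_of_lt_of_le ?_ (ord_add_le v h1 h2 h0))
    exact lt_min ((h i (Finset.mem_insert_self i s)).resolve_left h1)
      ((ih fun j hj => h j (Finset.mem_insert_of_mem hj)).resolve_left h2)

/-! ## The poles of a coordinate -/

/-- At a pole of `x` the order of a polynomial in `x` is its degree times that of `x`. -/
theorem ord_aeval_pole {x : F} {v : Place K F} (hv : v.ord x < 0) {p : Polynomial K} (hp : p ≠ 0) :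
    Polynomial.aeval x p ≠ 0 ∧ v.ord (Polynomial.aeval x p) = p.natDegree * v.ord x := by
  have hx0 : x ≠ 0 := fun h => by simp [h] at hv
  have hlt : p.leadingCoeff • x ^ p.natDegree ≠ 0 :=
    smul_ne_zero (Polynomial.leadingCoeff_ne_zero.mpr hp) (pow_ne_zero _ hx0)
  have ho : v.ord (p.leadingCoeff • x ^ p.natDegree) = p.natDegree * v.ord x := by
    rw [ord_smul_const v (Polynomial.leadingCoeff_ne_zero.mpr hp), ord_pow]
  have hrest : ∑ i ∈ Finset.range p.natDegree, p.coeff i • x ^ i = 0 ∨
      (p.natDegree : ℤ) * v.ord x < v.ord (∑ i ∈ Finset.range p.natDegree, p.coeff i • x ^ i) := by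
    refine lt_ord_sum _ _ v fun i hi => ?_
    rcases eq_or_ne (p.coeff i) 0 with h0 | h0
    · exact Or.inl (by rw [h0, zero_smul])
    · refine Or.inr ?_
      rw [ord_smul_const v h0, ord_pow]
      exact mul_lt_mul_of_neg_right (by exact_mod_cast Finset.mem_range.mp hi) hv
  rw [Polynomial.aeval_eq_sum_range, Finset.sum_range_succ, ← Polynomial.leadingCoeff, add_comm]
  rcases hrest with h0 | hgt
  · rw [h0, add_zero]; exact ⟨hlt, ho⟩
  · rcases eq_or_ne (∑ i ∈ Finset.range p.natDegree, p.coeff i • x ^ i) 0 with h0 | h0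
    · rw [h0, add_zero]; exact ⟨hlt, ho⟩
    have h := ord_add_eq v hlt h0 (ho ▸ hgt)
    refine ⟨fun he => ?_, h.trans ho⟩
    rw [eq_neg_of_add_eq_zero_left he, ord_neg] at ho
    omega

theorem exists_ord_adjoin {x : F} {c : K⟮x⟯} (hc : c ≠ 0) :
    ∃ d : ℤ, ∀ v : Place K F, v.ord x < 0 → v.ord (c : F) = d * v.ord x := by
  obtain ⟨p, q, hpq⟩ := (mem_adjoin_simple_iff K (c : F)).mp c.2
  have hc' : (c : F) ≠ 0 := fun h => hc (Subtype.ext h)
  have hp : p ≠ 0 := fun h => hc' (by rw [hpq, h, map_zero, zero_div])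
  have hq : q ≠ 0 := fun h => hc' (by rw [hpq, h, map_zero, div_zero])
  refine ⟨(p.natDegree : ℤ) - q.natDegree, fun v hv => ?_⟩
  obtain ⟨hp0, hpo⟩ := ord_aeval_pole hv hp
  obtain ⟨hq0, hqo⟩ := ord_aeval_pole hv hq
  rw [hpq, div_eq_mul_inv, v.ord_mul hp0 (inv_ne_zero hq0), v.ord_inv, hpo, hqo, sub_mul,
    sub_eq_add_neg]

variable [IsAlgClosed K]

/-- There are at most `[F : K(x)]` poles of `x`, counted with multiplicity. -/
theorem sum_neg_ord_le {x : F} [FiniteDimensional K⟮x⟯ F] {S : Finset (Place K F)}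
    (hS : ∀ v ∈ S, v.ord x < 0) : ∑ v ∈ S, -v.ord x ≤ Module.finrank K⟮x⟯ F := by
  classical
  set P : Place K F → ℤ := fun v => -v.ord x with hP
  have hpole : ∀ v ∈ S, v.ord x < 0 ∧ P v = -v.ord x := fun v hv => ⟨hS v hv, rfl⟩
  let ι := (v : S) × Fin (P v.1).toNat
  have happ : ∀ a : ι, ∃ t : F, t ≠ 0 ∧ a.1.1.ord t = (a.2 : ℤ) ∧
      ∀ w ∈ S, w ≠ a.1.1 → P w ≤ w.ord t := fun a => by
    obtain ⟨t, ht, h1, h2⟩ := exists_approx a.1.1 (S.erase a.1.1) (Finset.notMem_erase _ _)
      (a.2 : ℤ) (∑ w ∈ S, (P w).toNat)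
    refine ⟨t, ht, h1, fun w hw hne => le_trans ?_ (h2 w (Finset.mem_erase.mpr ⟨hne, hw⟩))⟩
    have := Finset.single_le_sum (f := fun w => (P w).toNat) (fun _ _ => Nat.zero_le _) hw
    omega
  choose t ht0 htv htw using happ
  have hli : LinearIndependent K⟮x⟯ t := by
    rw [Fintype.linearIndependent_iff]
    intro c hc
    by_contra hne
    push Not at hne
    set s : Finset ι := Finset.univ.filter fun a => c a ≠ 0 with hs
    have hd : ∀ a : s, ∃ d : ℤ, ∀ v : Place K F, v.ord x < 0 → v.ord (c a.1 : F) = d * v.ord x :=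
      fun a => exists_ord_adjoin (Finset.mem_filter.mp a.2).2
    choose d hd using hd
    have hsne : (Finset.univ : Finset s).Nonempty := by
      obtain ⟨a, ha⟩ := hne
      exact ⟨⟨a, Finset.mem_filter.mpr ⟨Finset.mem_univ _, ha⟩⟩, Finset.mem_univ _⟩
    obtain ⟨a₁, -, hmax⟩ := Finset.exists_max_image Finset.univ d hsne
    obtain ⟨a₀, ha₀, hmin⟩ := Finset.exists_min_image
      (Finset.univ.filter fun a : s => a.1.1 = a₁.1.1 ∧ d a = d a₁) (fun a => (a.1.2 : ℕ))
      ⟨a₁, by simp⟩
    obtain ⟨hav, had⟩ := (Finset.mem_filter.mp ha₀).2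
    set v := a₀.1.1.1
    obtain ⟨hv, hPv⟩ := hpole v a₀.1.1.2
    have hterm : ∀ a : s, v.ord ((c a.1 : F) * t a.1) = d a * v.ord x + v.ord (t a.1) := fun a => by
      rw [v.ord_mul (fun h => (Finset.mem_filter.mp a.2).2 (Subtype.ext h)) (ht0 _), hd a v hv]
    have hbig : ∀ b ∈ (Finset.univ : Finset ι).erase a₀.1, ((c b : F) * t b = 0 ∨
        v.ord ((c a₀.1 : F) * t a₀.1) < v.ord ((c b : F) * t b)) := by
      intro b hb
      rcases eq_or_ne (c b) 0 with h0 | h0
      · exact Or.inl (by rw [h0, ZeroMemClass.coe_zero, zero_mul])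
      refine Or.inr ?_
      let b' : s := ⟨b, Finset.mem_filter.mpr ⟨Finset.mem_univ _, h0⟩⟩
      rw [hterm a₀, show (c b : F) * t b = (c b'.1 : F) * t b'.1 from rfl, hterm b', htv a₀.1]
      have hle : d b' ≤ d a₀ := had ▸ hmax b' (Finset.mem_univ _)
      have hk : ((a₀.1.2 : ℕ) : ℤ) < P v := by
        have h := a₀.1.2.2
        change ((a₀.1.2 : ℕ)) < (P v).toNat at h
        omega
      rcases eq_or_ne b.1.1 v with hbv | hbv
      · rw [show v.ord (t b'.1) = (b.2 : ℤ) by rw [← hbv]; exact htv b]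
        rcases lt_or_eq_of_le hle with hlt | heq
        · have : (d b' + 1) * -v.ord x ≤ d a₀ * -v.ord x :=
            mul_le_mul_of_nonneg_right hlt (by omega)
          linarith [Int.natCast_nonneg (b.2 : ℕ)]
        · have h1 := hmin b' (Finset.mem_filter.mpr
            ⟨Finset.mem_univ _, (Subtype.ext hbv).trans hav, heq.trans had⟩)
          have h2 : (a₀.1.2 : ℕ) ≠ b.2 := fun h => (Finset.mem_erase.mp hb).1
            (Sigma.ext (Subtype.ext hbv) ((Fin.heq_ext_iff (by rw [hbv])).mpr h.symm))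
          rw [heq]
          change (a₀.1.2 : ℕ) ≤ b.2 at h1
          omega
      · have := htw b v a₀.1.1.2 (Ne.symm hbv)
        have hmul : d b' * -v.ord x ≤ d a₀ * -v.ord x :=
          mul_le_mul_of_nonneg_right hle (by omega)
        change P v ≤ v.ord (t b'.1) at this
        linarith
    have hsum : (c a₀.1 : F) * t a₀.1 + ∑ b ∈ Finset.univ.erase a₀.1, (c b : F) * t b = 0 :=
      (Finset.add_sum_erase _ (fun b => (c b : F) * t b) (Finset.mem_univ a₀.1)).trans hc
    have hne0 : (c a₀.1 : F) * t a₀.1 ≠ 0 :=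
      mul_ne_zero (fun h => (Finset.mem_filter.mp a₀.2).2 (Subtype.ext h)) (ht0 _)
    rcases lt_ord_sum _ _ v hbig with h0 | hgt
    · exact hne0 (by rwa [h0, add_zero] at hsum)
    · rw [eq_neg_of_add_eq_zero_right hsum, ord_neg] at hgt
      omega
  refine le_trans (le_of_eq ?_) (Int.ofNat_le.mpr hli.fintype_card_le_finrank)
  rw [Fintype.card_sigma, Nat.cast_sum, ← Finset.sum_coe_sort S fun v => -v.ord x]
  exact Finset.sum_congr rfl fun v _ => by
    have := hpole v.1 v.2
    rw [Fintype.card_fin]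
    omega

/-- Every function becomes regular away from the poles of `x` after multiplication by a polynomial
in `x`. -/
theorem exists_clear_poles' [∀ v : Place K F, v.FiniteResidue] {x : F} (hx : Transcendental K x)
    {P : Divisor K F} (hP : ∀ v, P v = max (-v.ord x) 0) {u : F} (hu : u ≠ 0)
    {S : Finset (Place K F)} (hS : ∀ v ∉ S, v.ord u = 0) :
    ∃ p : Polynomial K, p ≠ 0 ∧ ∃ m : ℕ,
      Polynomial.aeval x p * u ∈ riemannRochSpace (m • P) := by
  classical
  have hval : ∀ v : Place K F, ∃ a : K, 0 ≤ v.ord x → 0 < v.ord (x - algebraMap K F a) := fun v => by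
    by_cases hv : 0 ≤ v.ord x
    · haveI : Module.Finite K v.ResidueField := Place.FiniteResidue.finite
      obtain ⟨a, ha | ha⟩ := exists_value v
        ((mem_iff_ord_nonneg v (fun h => hx (by rw [h]; exact isAlgebraic_zero))).mpr hv)
      · exact absurd (ha ▸ isAlgebraic_algebraMap a) hx
      · exact ⟨a, fun _ => ha⟩
    · exact ⟨0, fun h => absurd h hv⟩
  choose a ha using hval
  set k := ∑ v ∈ S, (v.ord u).natAbs with hk
  set p : Polynomial K := ∏ v ∈ S, (Polynomial.X - Polynomial.C (a v)) ^ k with hp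
  have hpm : p.Monic := Polynomial.monic_prod_of_monic _ _ fun v _ => (Polynomial.monic_X_sub_C _).pow _
  have hev : Polynomial.aeval x p = ∏ v ∈ S, (x - algebraMap K F (a v)) ^ k := by
    simp [hp, map_prod]
  have hne : ∀ b : K, x - algebraMap K F b ≠ 0 := fun b h =>
    hx ((sub_eq_zero.mp h).symm ▸ isAlgebraic_algebraMap b)
  have hp0 : Polynomial.aeval x p ≠ 0 := by
    rw [hev]
    exact Finset.prod_ne_zero_iff.mpr fun v _ => pow_ne_zero k (hne _)
  refine ⟨p, hpm.ne_zero, k + p.natDegree, mem_space_iff.mpr (Or.inr fun w => ?_)⟩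
  rw [w.ord_mul hp0 hu, Finsupp.smul_apply, hP, nsmul_eq_mul]
  have hwk : -(k : ℤ) ≤ w.ord u := by
    by_cases hw : w ∈ S
    · have := Finset.single_le_sum (f := fun v : Place K F => (v.ord u).natAbs)
        (fun _ _ => Nat.zero_le _) hw
      omega
    · rw [hS w hw]; omega
  rcases lt_or_ge (w.ord x) 0 with hwx | hwx
  · rw [(ord_aeval_pole hwx hpm.ne_zero).2, max_eq_left (by omega)]
    have : (k : ℤ) * 1 ≤ (k : ℤ) * -w.ord x :=
      mul_le_mul_of_nonneg_left (by omega) (Int.natCast_nonneg k)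
    push_cast
    linarith
  rw [max_eq_right (by omega), mul_zero, neg_zero]
  have hfac : ∀ b : K, 0 ≤ w.ord (x - algebraMap K F b) := fun b =>
    ord_nonneg_of_mem' w (sub_mem ((mem_iff_ord_nonneg w (fun h => hx (by rw [h]; exact isAlgebraic_zero))).mpr hwx)
      (w.algebraMap_mem' b))
  have hprod : ∀ T : Finset (Place K F), w.ord (∏ v ∈ T, (x - algebraMap K F (a v)) ^ k) =
      ∑ v ∈ T, (k : ℤ) * w.ord (x - algebraMap K F (a v)) := fun T => by
    induction T using Finset.induction with
    | empty => simp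
    | insert v T hv ih =>
      rw [Finset.prod_insert hv, Finset.sum_insert hv, w.ord_mul (pow_ne_zero k (hne _))
        (Finset.prod_ne_zero_iff.mpr fun _ _ => pow_ne_zero k (hne _)), ih, ord_pow]
  rw [hev, hprod]
  by_cases hw : w ∈ S
  · have h1 := Finset.single_le_sum (f := fun v : Place K F => (k : ℤ) * w.ord (x - algebraMap K F (a v)))
      (fun v _ => mul_nonneg (Int.natCast_nonneg k) (hfac _)) hw
    have h2 : (k : ℤ) * 1 ≤ (k : ℤ) * w.ord (x - algebraMap K F (a w)) :=
      mul_le_mul_of_nonneg_left (ha w hwx) (Int.natCast_nonneg k)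
    omega
  · rw [hS w hw, add_zero]
    exact Finset.sum_nonneg fun v _ => mul_nonneg (Int.natCast_nonneg k) (hfac _)

/-- A transcendental function has a pole. -/
theorem exists_pole_of_isFinOver {x : F} (h : IsFinOver K x) {f : F} (hf : Transcendental K f) :
    ∃ v : Place K F, v.ord f < 0 := by
  have hnot : f ∉ (⨅ V : {V : ValuationSubring F // Set.range (algebraMap K F) ⊆ V.toSubring},
      V.1.toSubring) := by
    rw [iInf_valuationSubring_superset]
    intro hint
    refine hf (IsIntegral.isAlgebraic ?_)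
    have hle : Subring.closure (Set.range (algebraMap K F)) ≤ (algebraMap K F).range :=
      Subring.closure_le.mpr (RingHom.coe_range _).ge
    obtain ⟨P, hP, hPf⟩ := hint
    have hl : P.map (Subring.closure (Set.range (algebraMap K F))).subtype ∈
        Polynomial.lifts (algebraMap K F) := (Polynomial.lifts_iff_coeff_lifts _).mpr fun i => by
      rw [Polynomial.coeff_map]; exact hle (P.coeff i).2
    obtain ⟨Q, hQ, -, hQm⟩ := Polynomial.lifts_and_natDegree_eq_and_monic hl (hP.map _)
    refine ⟨Q, hQm, ?_⟩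
    rw [Polynomial.eval₂_eq_eval_map, hQ, Polynomial.eval_map]
    exact hPf
  rw [Subring.mem_iInf, not_forall] at hnot
  obtain ⟨⟨V, hV⟩, hVf⟩ := hnot
  obtain ⟨v, hv⟩ := exists_place_valuationSubring h (A := V) (fun a => hV ⟨a, rfl⟩)
    (fun htop => hVf (show f ∈ V from htop.symm ▸ ValuationSubring.mem_top f))
  refine ⟨v, not_le.mp fun h0 => hVf ?_⟩
  exact hv ▸ (mem_iff_ord_nonneg v (fun h => hf (by rw [h]; exact isAlgebraic_zero))).mpr h0

/-- The residue field of a place is `K`. -/
theorem finiteResidue_of_isFinOver {x : F} (h : IsFinOver K x) (v : Place K F) :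
    v.FiniteResidue := by
  suffices hs : Function.Surjective (algebraMap K v.ResidueField) from
    ⟨Module.Finite.of_surjective (Algebra.linearMap K v.ResidueField) hs⟩
  intro r
  obtain ⟨u, rfl⟩ := IsLocalRing.residue_surjective r
  by_cases ha : IsAlgebraic K (IsLocalRing.residue v.toValuationSubring u)
  · obtain ⟨a, ha'⟩ := exists_algebraMap_eq_of_isAlgebraic ha
    exact ⟨a, ha'⟩
  exfalso
  have hu : Transcendental K (u : F) := fun halg => ha (by
    obtain ⟨a, ha'⟩ := exists_algebraMap_eq_of_isAlgebraic halg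
    rw [show u = algebraMap K v.toValuationSubring a from Subtype.ext ha'.symm]
    exact isAlgebraic_algebraMap a)
  have hpoly : ∀ p : Polynomial K, p ≠ 0 → IsUnit (Polynomial.aeval u p) := fun p hp => by
    rw [← IsLocalRing.residue_ne_zero_iff_isUnit]
    intro h0
    refine ha ⟨p, hp, ?_⟩
    rw [← h0]
    exact (Polynomial.aeval_algebraMap_apply v.ResidueField u p)
  have hsub : ∀ s : K⟮(u : F)⟯, (s : F) ∈ v.toValuationSubring := fun s => by
    obtain ⟨p, q, hpq⟩ := (mem_adjoin_simple_iff K (s : F)).mp s.2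
    rw [hpq]
    rcases eq_or_ne q 0 with rfl | hq
    · simp
    have e : ∀ p : Polynomial K, Polynomial.aeval (u : F) p = (Polynomial.aeval u p : F) := fun p =>
      Polynomial.aeval_algebraMap_apply F u p
    obtain ⟨w, hw⟩ := hpoly q hq
    rw [e, e, ← hw, div_eq_mul_inv]
    refine mul_mem (Subtype.mem _) ?_
    rw [← show ((↑w⁻¹ : v.toValuationSubring) : F) = ((w : v.toValuationSubring) : F)⁻¹ from
      eq_inv_of_mul_eq_one_left (congrArg Subtype.val w.inv_mul)]
    exact Subtype.mem _
  haveI := (h.of_transcendental hu).finite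
  refine v.ne_top' (SetLike.ext fun y => iff_of_true ?_ trivial)
  letI : Algebra K⟮(u : F)⟯ v.toValuationSubring :=
    ((algebraMap K⟮(u : F)⟯ F).codRestrict v.toValuationSubring.toSubring hsub).toAlgebra
  haveI : IsScalarTower K⟮(u : F)⟯ v.toValuationSubring F := IsScalarTower.of_algebraMap_eq fun _ => rfl
  have hy : IsIntegral v.toValuationSubring y := (IsIntegral.of_finite K⟮(u : F)⟯ y).tower_top
  obtain ⟨z, hz⟩ := IsIntegrallyClosed.isIntegral_iff.mp hy
  exact hz ▸ z.2

theorem finite_poles {x : F} (h : IsFinOver K x) {f : F} (hf : Transcendental K f) :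
    {v : Place K F | v.ord f < 0}.Finite := by
  classical
  haveI := (h.of_transcendental hf).finite
  by_contra hinf
  obtain ⟨S, hS, hcard⟩ :=
    Set.Infinite.exists_subset_card_eq hinf (Module.finrank K⟮f⟯ F + 1)
  have h1 := sum_neg_ord_le (S := S) fun v hv => hS hv
  have h2 : (S.card : ℤ) • (1 : ℤ) ≤ ∑ v ∈ S, -v.ord f := by
    rw [natCast_zsmul]
    exact Finset.card_nsmul_le_sum _ _ _ fun v hv => by
      have : v.ord f < 0 := hS hv
      omega
  rw [smul_eq_mul, mul_one, hcard] at h2
  push_cast at h2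
  omega

theorem finite_ord_ne_zero {x : F} (h : IsFinOver K x) {f : F} (hf : f ≠ 0) :
    {v : Place K F | v.ord f ≠ 0}.Finite := by
  by_cases ha : IsAlgebraic K f
  · obtain ⟨a, rfl⟩ := exists_algebraMap_eq_of_isAlgebraic ha
    simp [ord_algebraMap]
  · refine ((finite_poles h ha).union (finite_poles h (f := f⁻¹)
      fun hi => ha (by simpa using hi.inv))).subset fun v hv => ?_
    simp only [Set.mem_union, Set.mem_setOf_eq, v.ord_inv] at hv ⊢
    omega

theorem exists_const_of_regular {x : F} (h : IsFinOver K x) {f : F}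
    (hf : f ∈ riemannRochSpace (0 : Divisor K F)) : ∃ a : K, algebraMap K F a = f := by
  by_cases ha : IsAlgebraic K f
  · exact exists_algebraMap_eq_of_isAlgebraic ha
  · obtain ⟨v, hv⟩ := exists_pole_of_isFinOver h ha
    have := ((mem_space_iff.mp hf).resolve_left fun h0 => ha (h0 ▸ isAlgebraic_zero)) v
    simp at this
    omega

/-- The space of an effective divisor has dimension at most its degree plus one. -/
theorem space_effective {x : F} (h : IsFinOver K x) {D : Divisor K F} (hD : 0 ≤ D) :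
    ∃ V : Submodule K F, Module.Finite K V ∧ riemannRochSpace D ≤ V ∧
      (Module.finrank K V : ℤ) ≤ Divisor.degree D + 1 := by
  classical
  haveI := finiteResidue_of_isFinOver h
  suffices key : ∀ (n : ℕ) (D : Divisor K F), 0 ≤ D → Divisor.degree D ≤ n →
      ∃ V : Submodule K F, Module.Finite K V ∧ riemannRochSpace D ≤ V ∧
        (Module.finrank K V : ℤ) ≤ Divisor.degree D + 1 from
    key (Divisor.degree D).toNat D hD (Int.self_le_toNat _)
  have hzero : ∃ V : Submodule K F, Module.Finite K V ∧ riemannRochSpace (0 : Divisor K F) ≤ V ∧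
      (Module.finrank K V : ℤ) ≤ Divisor.degree (0 : Divisor K F) + 1 := by
    refine ⟨K ∙ (1 : F), inferInstance, fun f hf => ?_, ?_⟩
    · obtain ⟨a, rfl⟩ := exists_const_of_regular h hf
      rw [Algebra.algebraMap_eq_smul_one]
      exact Submodule.smul_mem _ a (Submodule.mem_span_singleton_self 1)
    · rw [map_zero, finrank_span_singleton one_ne_zero]; simp
  intro n
  induction n with
  | zero =>
    intro D hD hd
    rw [eq_zero_of_degree_le hD (by simpa using hd)]
    exact hzero
  | succ n ih =>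
    intro D hD hd
    by_cases h0 : D = 0
    · rw [h0]; exact hzero
    obtain ⟨v, hv⟩ : ∃ v, D v ≠ 0 := by
      by_contra hne
      exact h0 (Finsupp.ext fun v => not_not.mp (not_exists.mp hne v))
    obtain ⟨V, hV, hle, hdim⟩ := ih (D - Finsupp.single v 1) (Finsupp.le_def.mpr fun w => by
      have := Finsupp.le_def.mp hD w
      rw [Finsupp.zero_apply] at this ⊢
      rw [Finsupp.sub_apply, Finsupp.single_apply]
      split_ifs with hw
      · subst hw; omega
      · omega) (by rw [map_sub, degree_single_one]; push_cast at hd; omega)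
    obtain ⟨f, -, hf⟩ := space_le_sup D v
    refine ⟨V ⊔ K ∙ f, inferInstance, hf.trans (sup_le_sup_right hle _), ?_⟩
    have h1 := Submodule.finrank_add_le_finrank_add_finrank V (K ∙ f)
    have h2 : Module.finrank K (K ∙ f) ≤ 1 := by
      rcases eq_or_ne f 0 with rfl | hf0
      · rw [Submodule.span_singleton_eq_bot.mpr rfl, finrank_bot]; exact Nat.zero_le _
      · rw [finrank_span_singleton hf0]
    rw [map_sub, degree_single_one] at hdim
    omega

/-- The poles of `x` add up to `[F : K(x)]`. -/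
theorem exists_pole_divisor {x : F} (h : IsFinOver K x) :
    ∃ P : Divisor K F, (∀ v, P v = max (-v.ord x) 0) ∧
      Divisor.degree P = Module.finrank K⟮x⟯ F := by
  classical
  haveI := finiteResidue_of_isFinOver h
  haveI := h.finite
  have hx0 : x ≠ 0 := fun h0 => h.transcendental (h0 ▸ isAlgebraic_zero)
  set S := (finite_poles h h.transcendental).toFinset with hS
  let P : Divisor K F := Finsupp.onFinset S (fun v => max (-v.ord x) 0) fun v hv => by
    rw [hS, Set.Finite.mem_toFinset]
    show v.ord x < 0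
    omega
  have hP : ∀ v, P v = max (-v.ord x) 0 := fun v => rfl
  have hP0 : 0 ≤ P := Finsupp.le_def.mpr fun v => le_max_right _ _
  refine ⟨P, hP, le_antisymm ?_ ?_⟩
  · have hsupp : ∀ v ∈ P.support, v.ord x < 0 := fun v hv => by
      rw [Finsupp.mem_support_iff, hP] at hv
      omega
    rw [degree_eq_sum]
    exact (Finset.sum_congr rfl fun v hv => by
      have := hsupp v hv
      show P v = -v.ord x
      rw [hP]
      omega).trans_le (sum_neg_ord_le hsupp)
  set n := Module.finrank K⟮x⟯ F with hn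
  let b := Module.finBasis K⟮x⟯ F
  choose p hp0 m₀ hm₀ using fun i => exists_clear_poles' h.transcendental hP (b.ne_zero i)
    (S := (finite_ord_ne_zero h (b.ne_zero i)).toFinset) (fun v hv => by
      simpa using hv)
  set m := ∑ i, m₀ i with hm
  let pu : Fin n → (K⟮x⟯)ˣ := fun i => Units.mk0
    ⟨Polynomial.aeval x (p i), (mem_adjoin_simple_iff _ _).mpr ⟨p i, 1, by simp⟩⟩
    (fun h' => hp0 i ((transcendental_iff.mp h.transcendental) _ (congrArg Subtype.val h')))
  let u : Fin n → F := fun i => Polynomial.aeval x (p i) * b i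
  have hu : LinearIndependent K⟮x⟯ u := b.linearIndependent.units_smul pu
  let g : K⟮x⟯ := AdjoinSimple.gen K x
  have hxmem : x ∈ riemannRochSpace P := mem_space_iff.mpr (Or.inr fun v => by rw [hP]; omega)
  have hxpow : ∀ j : ℕ, x ^ j ∈ riemannRochSpace (j • P) := fun j => by
    induction j with
    | zero => exact mem_space_iff.mpr (Or.inr fun v => by simp)
    | succ j ih => rw [pow_succ, succ_nsmul]; exact mul_mem_space ih hxmem
  -- count inside the space of `(m + s) P`
  by_contra hlt
  push Not at hlt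
  obtain ⟨s, hs⟩ : ∃ s : ℕ, (m : ℤ) * Divisor.degree P + 1 < s + n :=
    ⟨((m : ℤ) * Divisor.degree P + 1).toNat + 1, by omega⟩
  obtain ⟨V, hVfin, hle, hdim⟩ := space_effective h (D := (m + s) • P) (nsmul_nonneg hP0 _)
  have hg : LinearIndependent K fun j : Fin (s + 1) => g ^ (j : ℕ) := by
    refine Fintype.linearIndependent_iff.mpr fun c hc j => ?_
    have h1 := congrArg Subtype.val hc
    simp [g] at h1
    have h2 : (∑ i : Fin (s + 1), Polynomial.C (c i) * Polynomial.X ^ (i : ℕ)) = 0 :=
      transcendental_iff.mp h.transcendental _ (by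
        simpa [map_sum, Algebra.smul_def] using h1)
    have h3 := congrArg (fun p => Polynomial.coeff p (j : ℕ)) h2
    simpa [Polynomial.finsetSum_coeff, Polynomial.coeff_C_mul, Polynomial.coeff_X_pow,
      Fin.val_inj] using h3
  have hin : ∀ q : Fin (s + 1) × Fin n, g ^ (q.1 : ℕ) • u q.2 ∈ V := fun q => hle (by
    rw [Algebra.smul_def, map_pow, add_comm, add_nsmul]
    exact mul_mem_space (space_mono (nsmul_le_nsmul_left hP0 (by omega : (q.1 : ℕ) ≤ s))
      (hxpow _)) (space_mono (nsmul_le_nsmul_left hP0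
        (Finset.single_le_sum (fun _ _ => Nat.zero_le _) (Finset.mem_univ q.2))) (hm₀ q.2)))
  have hli : LinearIndependent K fun q => (⟨_, hin q⟩ : V) :=
    LinearIndependent.of_comp V.subtype (linearIndependent_smul hg hu)
  have hc := Int.ofNat_le.mpr hli.fintype_card_le_finrank
  rw [Fintype.card_prod, Fintype.card_fin, Fintype.card_fin] at hc
  rw [map_nsmul, nsmul_eq_mul] at hdim
  push_cast at hc hdim
  have h3 : (s : ℤ) * Divisor.degree P ≤ (s : ℤ) * (n - 1) :=
    mul_le_mul_of_nonneg_left (by omega) (Int.natCast_nonneg s)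
  linarith

/-- Principal divisors have degree zero. -/
theorem hasPrincipalDivisors_of_isFinOver {x : F} (h : IsFinOver K x) :
    HasPrincipalDivisors K F := by
  classical
  refine ⟨fun f hf => ?_⟩
  by_cases ha : IsAlgebraic K f
  · obtain ⟨a, rfl⟩ := exists_algebraMap_eq_of_isAlgebraic ha
    exact ⟨0, fun v => by rw [ord_algebraMap]; rfl, map_zero _⟩
  obtain ⟨P, hP, hdP⟩ := exists_pole_divisor (h.of_transcendental ha)
  obtain ⟨Z, hZ, hdZ⟩ := exists_pole_divisor (h.of_transcendental (f := f⁻¹)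
    fun hi => ha (by simpa using hi.inv))
  refine ⟨Z - P, fun v => by rw [Finsupp.sub_apply, hZ, hP, v.ord_inv]; omega, ?_⟩
  rw [map_sub, hdP, hdZ, show K⟮f⁻¹⟯ = K⟮f⟯ from le_antisymm
    (adjoin_simple_le_iff.mpr (inv_mem (mem_adjoin_simple_self K f)))
    (adjoin_simple_le_iff.mpr (by simpa using inv_mem (mem_adjoin_simple_self K f⁻¹))), sub_self]

/-- The hypotheses of the Riemann–Roch modules. -/
theorem curve_props {x : F} (h : IsFinOver K x) :
    HasPrincipalDivisors K F ∧ (∀ v : Place K F, v.FiniteResidue) ∧ Nonempty (Place K F) :=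
  ⟨hasPrincipalDivisors_of_isFinOver h, finiteResidue_of_isFinOver h,
    ⟨(exists_pole_of_isFinOver h h.transcendental).choose⟩⟩

end Fermat.Agent.MCurve.RR
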