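/-
Riemann's theorem for a function field over an algebraically closed field, without duality, and
without restriction on the characteristic: the degree of the poles of a coordinate is bounded by the
degree of the extension (approximation at finitely many places), hence the deficit is bounded.
-/
import Fermat.Agent.MCurve.RiemannRoch.Curve

set_option autoImplicit false
set_option linter.unusedSectionVars false

noncomputable section

namespace Fermat.Agent.MCurve.RR

open AlgebraicCurve IntermediateField

variable {K F : Type*} [Field K] [Field F] [Algebra K F]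

variable (K) in
/-- The divisor of poles. -/
def poleDiv [HasPrincipalDivisors K F] (x : F) : Divisor K F :=
  (divOf K x).mapRange (fun n => max (-n) 0) (by simp)

theorem poleDiv_apply [HasPrincipalDivisors K F] (x : F) (v : Place K F) :
    poleDiv K x v = max (-v.ord x) 0 := by
  rw [poleDiv, Finsupp.mapRange_apply, divOf_apply]

variable [IsAlgClosed K] [∀ v : Place K F, v.FiniteResidue] [HasPrincipalDivisors K F]

/-- There are at most `[F : K(x)]` poles of `x`, counted with multiplicity. -/
theorem degree_poleDiv_le {x : F} [FiniteDimensional K⟮x⟯ F] :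
    Divisor.degree (poleDiv K x) ≤ Module.finrank K⟮x⟯ F := by
  rw [degree_eq_sum, Finsupp.sum]
  have key : ∀ v ∈ (poleDiv K x).support, v.ord x < 0 ∧ poleDiv K x v = -v.ord x := fun v hv => by
    rw [Finsupp.mem_support_iff, poleDiv_apply] at hv
    rw [poleDiv_apply]
    omega
  exact (Finset.sum_congr rfl fun v hv => (key v hv).2).trans_le
    (sum_neg_ord_le fun v hv => (key v hv).1)

variable [Nonempty (Place K F)]

theorem exists_pole {x : F} (hx : Transcendental K x) : ∃ v : Place K F, v.ord x < 0 := by
  by_contra h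
  push Not at h
  obtain ⟨a, ha⟩ := exists_const_of_mem_zero (f := x)
    (mem_space_iff.mpr (Or.inr fun v => by simpa using h v))
  exact hx (ha ▸ isAlgebraic_algebraMap a)

theorem exists_zero {x : F} (hx : Transcendental K x) : ∃ v : Place K F, 0 < v.ord x := by
  by_contra h
  push Not at h
  obtain ⟨v, hv⟩ := exists_pole hx
  have h1 := eq_zero_of_degree_le (K := K) (F := F) (D := -divOf K x)
    (Finsupp.le_def.mpr fun w => by simpa [divOf_apply] using h w)
    (by rw [map_neg, degree_divOf, neg_zero])
  have := congrFun (congrArg DFunLike.coe h1) v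
  simp [divOf_apply] at this
  omega

/-- Every function becomes regular away from the poles of `x` after multiplication by a polynomial
in `x`. -/
theorem exists_clear_poles {x : F} (hx : Transcendental K x) {u : F} (hu : u ≠ 0) :
    ∃ p : Polynomial K, p ≠ 0 ∧ ∃ m : ℕ,
      Polynomial.aeval x p * u ∈ riemannRochSpace (m • poleDiv K x) :=
  exists_clear_poles' hx (poleDiv_apply x) hu (S := (divOf K u).support) fun v hv => by
    rwa [Finsupp.notMem_support_iff, divOf_apply] at hv

/-- The deficit is bounded on the multiples of the pole divisor. -/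
theorem exists_deficit_bound {x : F} (hx : IsFinOver K x) :
    ∃ C : ℕ, ∀ t : ℕ, deficit (t • poleDiv K x) ≤ C := by
  classical
  haveI := hx.finite
  set P := poleDiv K x with hP
  have hP0 : 0 ≤ P := Finsupp.le_def.mpr fun v => by rw [hP, poleDiv_apply]; simp
  set n := Module.finrank K⟮x⟯ F with hn
  let b := Module.finBasis K⟮x⟯ F
  choose p hp0 m₀ hm₀ using fun i => exists_clear_poles hx.transcendental (b.ne_zero i)
  set m := ∑ i, m₀ i with hm
  let pu : Fin n → (K⟮x⟯)ˣ := fun i => Units.mk0
    ⟨Polynomial.aeval x (p i), (mem_adjoin_simple_iff _ _).mpr ⟨p i, 1, by simp⟩⟩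
    (fun h => hp0 i ((transcendental_iff.mp hx.transcendental) _ (congrArg Subtype.val h)))
  let u : Fin n → F := fun i => Polynomial.aeval x (p i) * b i
  have hu : LinearIndependent K⟮x⟯ u :=
    b.linearIndependent.units_smul pu
  have hmem : ∀ i, u i ∈ riemannRochSpace (m • P) := fun i =>
    space_mono (nsmul_le_nsmul_left hP0
      (Finset.single_le_sum (fun _ _ => Nat.zero_le _) (Finset.mem_univ i))) (hm₀ i)
  have hxmem : x ∈ riemannRochSpace P := mem_space_iff.mpr (Or.inr fun v => by
    rw [hP, poleDiv_apply]; omega)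
  have hxpow : ∀ j : ℕ, x ^ j ∈ riemannRochSpace (j • P) := fun j => by
    induction j with
    | zero => exact mem_space_iff.mpr (Or.inr fun v => by simp)
    | succ j ih => rw [pow_succ, succ_nsmul]; exact mul_mem_space ih hxmem
  have hlow : ∀ s : ℕ, n * (s + 1) ≤ ell ((m + s) • P) := fun s => by
    let g : K⟮x⟯ := AdjoinSimple.gen K x
    have hg : LinearIndependent K fun j : Fin (s + 1) => g ^ (j : ℕ) := by
      refine Fintype.linearIndependent_iff.mpr fun c hc j => ?_
      have h1 := congrArg Subtype.val hc
      simp [g] at h1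
      have h2 : (∑ i : Fin (s + 1), Polynomial.C (c i) * Polynomial.X ^ (i : ℕ)) = 0 :=
        transcendental_iff.mp hx.transcendental _ (by
          simpa [map_sum, Algebra.smul_def] using h1)
      have h3 := congrArg (fun p => Polynomial.coeff p (j : ℕ)) h2
      simpa [Polynomial.finsetSum_coeff, Polynomial.coeff_C_mul, Polynomial.coeff_X_pow, Fin.val_inj] using h3
    have hli := linearIndependent_smul hg hu
    have hin : ∀ q : Fin (s + 1) × Fin n, g ^ (q.1 : ℕ) • u q.2 ∈ riemannRochSpace ((m + s) • P) :=
      fun q => by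
        rw [Algebra.smul_def, map_pow, add_comm, add_nsmul]
        exact mul_mem_space (space_mono (nsmul_le_nsmul_left hP0 (by omega : (q.1 : ℕ) ≤ s))
          (hxpow _)) (hmem _)
    have hli' : LinearIndependent K fun q => (⟨_, hin q⟩ : riemannRochSpace ((m + s) • P)) :=
      LinearIndependent.of_comp (riemannRochSpace ((m + s) • P)).subtype hli
    have := hli'.fintype_card_le_finrank
    rwa [Fintype.card_prod, Fintype.card_fin, Fintype.card_fin, mul_comm] at this
  refine ⟨m * n + 1, fun t => ?_⟩
  refine le_trans (deficit_mono (nsmul_le_nsmul_left hP0 (Nat.le_add_left t m))) ?_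
  have h1 : ((n * (t + 1) : ℕ) : ℤ) ≤ ell ((m + t) • P) := by exact_mod_cast hlow t
  have h2 : Divisor.degree P * ((m + t : ℕ) : ℤ) ≤ (n : ℤ) * ((m + t : ℕ) : ℤ) :=
    mul_le_mul_of_nonneg_right degree_poleDiv_le (Int.natCast_nonneg _)
  simp only [deficit, map_nsmul, nsmul_eq_mul]
  push_cast at h1 h2 ⊢
  linarith [Int.natCast_nonneg n]

/-! ## Riemann's theorem -/

/-- `g` is the genus in the sense of Riemann, attained from degree `c` on. -/
structure IsRiemann (K F : Type*) [Field K] [Field F] [Algebra K F] (g c : ℕ) : Prop where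
  le : ∀ D : Divisor K F, Divisor.degree D + 1 - g ≤ ell D
  eq : ∀ D : Divisor K F, (c : ℤ) ≤ Divisor.degree D → (ell D : ℤ) = Divisor.degree D + 1 - g

/-- Riemann's theorem. -/
theorem exists_isRiemann {x : F} (hx : IsFinOver K x) : ∃ g c : ℕ, IsRiemann K F g c := by
  classical
  obtain ⟨C, hC⟩ := exists_deficit_bound hx
  set P := poleDiv K x with hP
  have hP0 : 0 ≤ P := Finsupp.le_def.mpr fun v => by rw [hP, poleDiv_apply]; simp
  have hdP : 1 ≤ Divisor.degree P := by
    obtain ⟨v, hv⟩ := exists_pole hx.transcendental (K := K)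
    refine le_trans ?_ (degree_le_of_le (D := Finsupp.single v 1) (Finsupp.le_def.mpr fun w => ?_))
    · rw [degree_single_one]
    · rw [Finsupp.single_apply, hP, poleDiv_apply]
      split_ifs with h
      · subst h; omega
      · omega
  have hbdd : ∀ D : Divisor K F, deficit D ≤ C := by
    intro D
    set Dp : Divisor K F := D.mapRange (fun z => max z 0) (by simp) with hDp
    have hle : D ≤ Dp := Finsupp.le_def.mpr fun v => by rw [hDp, Finsupp.mapRange_apply]; omega
    have hDp0 : 0 ≤ Dp := Finsupp.le_def.mpr fun v => by rw [hDp, Finsupp.mapRange_apply]; simp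
    have hd0 := degree_nonneg hDp0
    obtain ⟨t, ht⟩ : ∃ t : ℕ, (C : ℤ) + Divisor.degree Dp ≤ t :=
      ⟨((C : ℤ) + Divisor.degree Dp).toNat, Int.self_le_toNat _⟩
    have hpos : 0 < ell (t • P - Dp) := by
      have h1 := ell_le_add (sub_le_self (t • P) hDp0)
      have h2 := hC t
      simp only [deficit, map_nsmul, nsmul_eq_mul] at h2
      rw [map_sub, map_nsmul, nsmul_eq_mul] at h1
      have h3 : (t : ℤ) * 1 ≤ (t : ℤ) * Divisor.degree P :=
        mul_le_mul_of_nonneg_left hdP (Int.natCast_nonneg t)
      omega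
    obtain ⟨f, hf, hf0⟩ := (riemannRochSpace (t • P - Dp)).exists_mem_ne_zero_of_ne_bot
      (fun h => by rw [ell, h, finrank_bot] at hpos; exact lt_irrefl 0 hpos)
    refine le_trans (deficit_mono ?_) ((deficit_add_divOf (t • P) hf0).le.trans (hC t))
    refine hle.trans ?_
    have h := (mem_space_iff_of_ne hf0).mp hf
    rw [sub_add_eq_add_sub] at h
    exact sub_nonneg.mp h
  obtain ⟨G, ⟨D₀, hD₀⟩, hG⟩ := Int.exists_greatest_of_bdd (P := fun z => ∃ D : Divisor K F, deficit D = z)
    ⟨C, fun z ⟨D, hD⟩ => hD ▸ hbdd D⟩ ⟨_, 0, rfl⟩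
  have hG0 : 0 ≤ G := le_trans (by
    have := ell_le_degree_succ (K := K) (F := F) (D := 0) (by simp)
    simp only [deficit]
    omega) (hG _ ⟨0, rfl⟩)
  obtain ⟨g, rfl⟩ := Int.eq_ofNat_of_zero_le hG0
  have hle : ∀ D : Divisor K F, Divisor.degree D + 1 - g ≤ ell D := fun D => by
    have := hG _ ⟨D, rfl⟩
    simp only [deficit] at this
    omega
  refine ⟨g, (Divisor.degree D₀ + g).toNat, hle, fun D hD => le_antisymm ?_ (hle D)⟩
  have hpos : 0 < ell (D - D₀) := by
    have := hle (D - D₀)
    rw [map_sub] at this
    omega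
  obtain ⟨f, hf, hf0⟩ := (riemannRochSpace (D - D₀)).exists_mem_ne_zero_of_ne_bot
    (fun h => by rw [ell, h, finrank_bot] at hpos; exact lt_irrefl 0 hpos)
  have h := (mem_space_iff_of_ne hf0).mp hf
  rw [sub_add_eq_add_sub, sub_nonneg] at h
  have := deficit_mono h
  rw [deficit_add_divOf D hf0, hD₀] at this
  simp only [deficit] at this
  omega

theorem IsRiemann.genus_unique {g c g' c' : ℕ} (h : IsRiemann K F g c) (h' : IsRiemann K F g' c') :
    g = g' := by
  obtain ⟨v⟩ := ‹Nonempty (Place K F)›
  have hd : Divisor.degree (Finsupp.single v ((c : ℤ) + c')) = (c : ℤ) + c' := by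
    rw [Divisor.degree_single, deg_one, Nat.cast_one, mul_one]
  have h1 := h.eq (Finsupp.single v ((c : ℤ) + c')) (by omega)
  have h2 := h'.eq (Finsupp.single v ((c : ℤ) + c')) (by omega)
  omega

end Fermat.Agent.MCurve.RR
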