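/-
Consequences of Riemann's theorem: dropping dimensions at generic places, effective representatives,
pencils without base points, products and colons of Riemann–Roch spaces.
-/
import Fermat.Agent.MCurve.RiemannRoch.Riemann
import Mathlib.GroupTheory.CosetCover
import Mathlib.Algebra.Algebra.Operations

set_option autoImplicit false
set_option linter.unusedSectionVars false

noncomputable section

namespace Fermat.Agent.MCurve.RR

open AlgebraicCurve

variable {K F : Type*} [Field K] [Field F] [Algebra K F] [IsAlgClosed K]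
  [∀ v : Place K F, v.FiniteResidue] [HasPrincipalDivisors K F] [Nonempty (Place K F)]

theorem exists_ne_zero_of_ell_pos {D : Divisor K F} (h : 0 < ell D) :
    ∃ f ∈ riemannRochSpace D, f ≠ 0 := by
  refine Submodule.exists_mem_ne_zero_of_ne_bot fun h0 => ?_
  rw [ell, h0, finrank_bot] at h
  exact lt_irrefl 0 h

theorem ell_sub_lt {D : Divisor K F} {v : Place K F} {f : F} (hf : f ∈ riemannRochSpace D)
    (hf0 : f ≠ 0) (hv : v.ord f = -D v) :
    ell (D - Finsupp.single v 1) + 1 = ell D := by
  classical
  have hlt : riemannRochSpace (D - Finsupp.single v 1) < riemannRochSpace D := by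
    refine lt_of_le_of_ne (space_mono (sub_le_self _ (Finsupp.single_nonneg.mpr zero_le_one)))
      fun h => ?_
    have hf' : f ∈ riemannRochSpace (D - Finsupp.single v 1) := h.symm ▸ hf
    have := ((mem_space_iff.mp hf').resolve_left hf0) v
    rw [Finsupp.sub_apply, Finsupp.single_eq_same] at this
    omega
  have := Submodule.finrank_lt_finrank_of_lt hlt
  have := ell_le_succ D v
  simp only [ell] at *
  omega

/-- Outside finitely many places the dimension drops. -/
theorem exists_finite_drop {D : Divisor K F} (h : 0 < ell D) :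
    ∃ S : Finset (Place K F), ∀ v ∉ S, ell (D - Finsupp.single v 1) + 1 = ell D := by
  classical
  obtain ⟨f, hf, hf0⟩ := exists_ne_zero_of_ell_pos h
  refine ⟨D.support ∪ (divOf K f).support, fun v hv => ell_sub_lt hf hf0 ?_⟩
  rw [Finset.notMem_union, Finsupp.notMem_support_iff, Finsupp.notMem_support_iff, divOf_apply] at hv
  omega

theorem infinite_places {x : F} (hx : Transcendental K x) : Infinite (Place K F) := by
  have key : ∀ a : K, ∃ v : Place K F, 0 < v.ord (x - algebraMap K F a) := fun a =>
    exists_zero fun h => hx (by simpa using h.add (isAlgebraic_algebraMap a))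
  choose v hv using key
  refine Infinite.of_injective v fun a b hab => ?_
  by_contra hne
  have ha := hv a
  have hb := hv b
  rw [← hab] at hb
  have h0 : ∀ c : K, x - algebraMap K F c ≠ 0 := fun c h =>
    hx ((sub_eq_zero.mp h).symm ▸ isAlgebraic_algebraMap c)
  have e : (x - algebraMap K F b) + -(x - algebraMap K F a) = algebraMap K F (a - b) := by
    rw [map_sub]; ring
  have h := ord_add_le (v a) (h0 b) (neg_ne_zero.mpr (h0 a))
    (by rw [e]; exact (map_ne_zero _).mpr (sub_ne_zero.mpr hne))
  rw [ord_neg, e, ord_algebraMap] at h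
  omega

/-- Finitely many spaces drop by `r` on subtracting `r` places with a property that holds outside
every finite set. -/
theorem exists_subtract_of {p : Place K F → Prop} (hp : ∀ s : Finset (Place K F), ∃ v, p v ∧ v ∉ s)
    {ι : Type*} [Finite ι] (D : ι → Divisor K F) (r : ℕ) (h : ∀ i, r ≤ ell (D i))
    (S : Finset (Place K F)) :
    ∃ T : Finset (Place K F), T.card = r ∧ Disjoint T S ∧ (∀ v ∈ T, p v) ∧
      ∀ i, ell (D i - ∑ v ∈ T, Finsupp.single v 1) + r = ell (D i) := by
  classical
  cases nonempty_fintype ι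
  induction r with
  | zero => exact ⟨∅, rfl, Finset.disjoint_empty_left S, by simp, fun i => by simp⟩
  | succ r ih =>
    obtain ⟨T, hT, hdis, hTp, hdrop⟩ := ih fun i => (Nat.le_succ r).trans (h i)
    have hpos : ∀ i, 0 < ell (D i - ∑ v ∈ T, Finsupp.single v 1) := fun i => by
      have := hdrop i
      have := h i
      omega
    choose B hB using fun i => exists_finite_drop (hpos i)
    obtain ⟨v, hvp, hv⟩ := hp (S ∪ T ∪ Finset.univ.biUnion B)
    simp only [Finset.mem_union, Finset.mem_biUnion, Finset.mem_univ, true_and, not_or,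
      not_exists] at hv
    refine ⟨insert v T, by rw [Finset.card_insert_of_notMem hv.1.2, hT],
      Finset.disjoint_insert_left.mpr ⟨hv.1.1, hdis⟩,
      fun w hw => (Finset.mem_insert.mp hw).elim (fun e => e ▸ hvp) (hTp w), fun i => ?_⟩
    rw [Finset.sum_insert hv.1.2, ← sub_sub, sub_right_comm]
    have := hB i v (hv.2 i)
    have := hdrop i
    omega

/-- Finitely many spaces drop by `r` on subtracting `r` suitable places. -/
theorem exists_subtract [Infinite (Place K F)] {ι : Type*} [Finite ι] (D : ι → Divisor K F) (r : ℕ)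
    (h : ∀ i, r ≤ ell (D i)) (S : Finset (Place K F)) :
    ∃ T : Finset (Place K F), T.card = r ∧ Disjoint T S ∧
      ∀ i, ell (D i - ∑ v ∈ T, Finsupp.single v 1) + r = ell (D i) := by
  obtain ⟨T, h1, h2, -, h3⟩ := exists_subtract_of (p := fun _ => True)
    (fun s => (Infinite.exists_notMem_finset s).imp fun v hv => ⟨trivial, hv⟩) D r h S
  exact ⟨T, h1, h2, h3⟩

/-- A class with a section has an effective representative. -/
theorem exists_effective {D : Divisor K F} (h : 0 < ell D) :
    ∃ E : Divisor K F, 0 ≤ E ∧ E - D ∈ Divisor.principal (K := K) (F := F) := by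
  obtain ⟨f, hf, hf0⟩ := exists_ne_zero_of_ell_pos h
  exact ⟨D + divOf K f, (mem_space_iff_of_ne hf0).mp hf, f, hf0,
    fun v => by rw [add_sub_cancel_left, divOf_apply]⟩

theorem ell_eq_of_principal {D E : Divisor K F} (h : E - D ∈ Divisor.principal (K := K) (F := F)) :
    ell E = ell D := by
  obtain ⟨f, hf, he⟩ := h
  rw [show E = D + divOf K f from Finsupp.ext fun v => by
    have := he v; rw [Finsupp.sub_apply] at this; rw [Finsupp.add_apply, divOf_apply]; omega]
  exact ell_add_divOf D hf

theorem degree_eq_of_principal {D E : Divisor K F}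
    (h : E - D ∈ Divisor.principal (K := K) (F := F)) : Divisor.degree E = Divisor.degree D := by
  obtain ⟨f, -, he⟩ := h
  rw [show E = D + divOf K f from Finsupp.ext fun v => by
    have := he v; rw [Finsupp.sub_apply] at this; rw [Finsupp.add_apply, divOf_apply]; omega,
    map_add, degree_divOf, add_zero]

/-- A class with a single section has one effective representative. -/
theorem effective_unique {D E E' : Divisor K F} (h : ell D = 1) (hE : 0 ≤ E) (hE' : 0 ≤ E')
    (he : E - D ∈ Divisor.principal (K := K) (F := F))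
    (he' : E' - D ∈ Divisor.principal (K := K) (F := F)) : E = E' := by
  obtain ⟨f, hf, hEf⟩ := he
  obtain ⟨f', hf', hEf'⟩ := he'
  have hm : ∀ {g : F} {G : Divisor K F}, g ≠ 0 → 0 ≤ G → (∀ v, (G - D) v = v.ord g) →
      g ∈ riemannRochSpace D := fun hg hG e => mem_space_iff.mpr (Or.inr fun v => by
    have := e v; have := Finsupp.le_def.mp hG v
    rw [Finsupp.sub_apply] at *; simp only [Finsupp.zero_apply] at *; omega)
  obtain ⟨a, ha⟩ := exists_smul_eq_of_finrank_eq_one h
    (x := (⟨f, hm hf hE hEf⟩ : riemannRochSpace D)) (fun h0 => hf (congrArg Subtype.val h0))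
    ⟨f', hm hf' hE' hEf'⟩
  have ha' : a • f = f' := congrArg Subtype.val ha
  have ha0 : a ≠ 0 := fun h0 => hf' (by rw [← ha', h0, zero_smul])
  ext v
  have h1 := hEf v
  have h2 := hEf' v
  rw [← ha', ord_smul_const v ha0] at h2
  rw [Finsupp.sub_apply] at h1 h2
  omega

variable {g c : ℕ}

theorem IsRiemann.ell_sub_single (hR : IsRiemann K F g c) {D : Divisor K F}
    (hD : (c : ℤ) + 1 ≤ Divisor.degree D) (v : Place K F) :
    ell (D - Finsupp.single v 1) + 1 = ell D := by
  have h1 := hR.eq D (by omega)
  have h2 := hR.eq (D - Finsupp.single v 1) (by rw [map_sub, degree_single_one]; omega)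
  rw [map_sub, degree_single_one] at h2
  omega

/-- In genus zero every degree from zero on is large. -/
theorem IsRiemann.of_genus_zero {c : ℕ} (hR : IsRiemann K F 0 c) : IsRiemann K F 0 0 :=
  ⟨hR.le, fun D hD => le_antisymm (by have := ell_le_degree_succ (D := D) (by omega); omega)
    (hR.le D)⟩

/-- There are no base points in large degree. -/
theorem IsRiemann.exists_ord_eq (hR : IsRiemann K F g c) {D : Divisor K F}
    (hD : (c : ℤ) + 1 ≤ Divisor.degree D) (v : Place K F) :
    ∃ f ∈ riemannRochSpace D, f ≠ 0 ∧ v.ord f = -D v := by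
  classical
  by_contra hne
  push Not at hne
  have hle : riemannRochSpace D ≤ riemannRochSpace (D - Finsupp.single v 1) := fun f hf => by
    rcases eq_or_ne f 0 with rfl | hf0
    · exact zero_mem _
    refine mem_space_iff.mpr (Or.inr fun w => ?_)
    have := ((mem_space_iff.mp hf).resolve_left hf0) w
    rw [Finsupp.sub_apply, Finsupp.single_apply]
    split_ifs with h
    · subst h; have := hne f hf hf0; omega
    · omega
  have h1 := Submodule.finrank_mono hle
  have := hR.ell_sub_single hD v
  simp only [ell] at *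
  omega

/-- Two sections without a common zero. -/
theorem IsRiemann.exists_pencil (hR : IsRiemann K F g c) {A : Divisor K F}
    (hA : (c : ℤ) + 1 ≤ Divisor.degree A) :
    ∃ s ∈ riemannRochSpace A, ∃ t ∈ riemannRochSpace A, s ≠ 0 ∧ t ≠ 0 ∧
      ∀ v : Place K F, v.ord s = -A v ∨ v.ord t = -A v := by
  classical
  obtain ⟨v₀⟩ := ‹Nonempty (Place K F)›
  obtain ⟨s, hs, hs0, -⟩ := hR.exists_ord_eq hA v₀
  set Z : Finset (Place K F) := insert v₀ (A + divOf K s).support
  obtain ⟨t, ht⟩ : ∃ t : riemannRochSpace A, ∀ v ∈ Z,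
      (t : F) ∉ riemannRochSpace (A - Finsupp.single v 1) := by
    by_contra hne
    push Not at hne
    obtain ⟨v, hv⟩ := Subspace.exists_eq_top_of_iUnion_eq_univ (k := K)
      (p := fun v : Z => (riemannRochSpace (A - Finsupp.single v.1 1)).comap
        (riemannRochSpace A).subtype) (Set.eq_univ_of_forall fun t => by
          obtain ⟨v, hv, htv⟩ := hne t
          exact Set.mem_iUnion.mpr ⟨⟨v, hv⟩, htv⟩)
    obtain ⟨f, hf, hf0, hfv⟩ := hR.exists_ord_eq hA v.1
    have hf' : f ∈ riemannRochSpace (A - Finsupp.single v.1 1) :=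
      (show (⟨f, hf⟩ : riemannRochSpace A) ∈ _ from hv.symm ▸ Submodule.mem_top)
    have := ((mem_space_iff.mp hf').resolve_left hf0) v.1
    rw [Finsupp.sub_apply, Finsupp.single_eq_same] at this
    omega
  have ht0 : (t : F) ≠ 0 := fun h => ht v₀ (Finset.mem_insert_self _ _) (h ▸ zero_mem _)
  refine ⟨s, hs, t, t.2, hs0, ht0, fun v => ?_⟩
  by_cases hv : v.ord s = -A v
  · exact Or.inl hv
  refine Or.inr ?_
  have hvZ : v ∈ Z := Finset.mem_insert_of_mem (Finsupp.mem_support_iff.mpr (by
    rw [Finsupp.add_apply, divOf_apply]; omega))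
  by_contra htv
  refine ht v hvZ (mem_space_iff.mpr (Or.inr fun w => ?_))
  have := ((mem_space_iff.mp t.2).resolve_left ht0) w
  rw [Finsupp.sub_apply, Finsupp.single_apply]
  split_ifs with h
  · subst h; omega
  · omega

/-- Products of sections fill the space of the sum. -/
theorem IsRiemann.space_mul (hR : IsRiemann K F g c) {A B : Divisor K F}
    (hA : (c : ℤ) + 1 ≤ Divisor.degree A) (hB : (c : ℤ) ≤ Divisor.degree B - Divisor.degree A) :
    riemannRochSpace A * riemannRochSpace B = riemannRochSpace (A + B) := by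
  classical
  refine le_antisymm (Submodule.mul_le.mpr fun f hf h hh => mul_mem_space hf hh) ?_
  obtain ⟨s, hs, t, ht, hs0, ht0, hst⟩ := hR.exists_pencil hA
  set ms := LinearMap.mulLeft K s
  set mt := LinearMap.mulLeft K t
  set U := (riemannRochSpace B).map ms ⊔ (riemannRochSpace B).map mt
  have hUle : U ≤ riemannRochSpace A * riemannRochSpace B := sup_le
    (Submodule.map_le_iff_le_comap.mpr fun b hb => Submodule.mul_mem_mul hs hb)
    (Submodule.map_le_iff_le_comap.mpr fun b hb => Submodule.mul_mem_mul ht hb)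
  refine le_trans (le_of_eq ?_) hUle
  have hUAB : U ≤ riemannRochSpace (A + B) :=
    hUle.trans (Submodule.mul_le.mpr fun f hf h hh => mul_mem_space hf hh)
  refine (Submodule.eq_of_le_of_finrank_le hUAB ?_).symm
  have hinj : ∀ {u : F}, u ≠ 0 → Function.Injective (LinearMap.mulLeft K u) := fun hu a b h =>
    mul_left_cancel₀ hu h
  have hd := Submodule.finrank_sup_add_finrank_inf_eq
    ((riemannRochSpace B).map ms) ((riemannRochSpace B).map mt)
  rw [(Submodule.equivMapOfInjective ms (hinj hs0) _).finrank_eq.symm,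
    (Submodule.equivMapOfInjective mt (hinj ht0) _).finrank_eq.symm] at hd
  have hinf : (riemannRochSpace B).map ms ⊓ (riemannRochSpace B).map mt ≤
      (riemannRochSpace (B - A)).map (LinearMap.mulLeft K (s * t)) := by
    rintro z ⟨⟨a, ha, rfl⟩, b, hb, hba⟩
    change t * b = s * a at hba
    refine ⟨a / t, ?_, by
      show s * t * (a / t) = s * a
      field_simp⟩
    rcases eq_or_ne a 0 with rfl | ha0
    · simp
    have hb0 : b ≠ 0 := fun h => mul_ne_zero hs0 ha0 (by rw [← hba, h, mul_zero])
    refine mem_space_iff.mpr (Or.inr fun v => ?_)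
    rw [div_eq_mul_inv, v.ord_mul ha0 (inv_ne_zero ht0), v.ord_inv, Finsupp.sub_apply]
    have e := congrArg (v.ord ·) hba
    simp only [v.ord_mul ht0 hb0, v.ord_mul hs0 ha0] at e
    have h1 := ((mem_space_iff.mp ha).resolve_left ha0) v
    have h2 := ((mem_space_iff.mp hb).resolve_left hb0) v
    rcases hst v with h | h <;> omega
  have hi := Submodule.finrank_mono hinf
  rw [(Submodule.equivMapOfInjective _ (hinj (mul_ne_zero hs0 ht0)) _).finrank_eq.symm] at hi
  have e1 := hR.eq B (by omega)
  have e2 := hR.eq (B - A) (by rw [map_sub]; omega)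
  have e3 := hR.eq (A + B) (by rw [map_add]; omega)
  rw [map_sub] at e2
  rw [map_add] at e3
  change Module.finrank K U + _ = _ at hd
  simp only [ell] at *
  omega

/-- The colon of two spaces. -/
theorem IsRiemann.mem_space_iff_mul (hR : IsRiemann K F g c) {E B : Divisor K F}
    (hB : (c : ℤ) + 1 ≤ Divisor.degree B) {f : F} :
    f ∈ riemannRochSpace E ↔ ∀ b ∈ riemannRochSpace B, f * b ∈ riemannRochSpace (E + B) := by
  refine ⟨fun hf b hb => mul_mem_space hf hb, fun h => ?_⟩
  rcases eq_or_ne f 0 with rfl | hf
  · exact zero_mem _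
  refine mem_space_iff.mpr (Or.inr fun v => ?_)
  obtain ⟨b, hb, hb0, hbv⟩ := hR.exists_ord_eq hB v
  have := ((mem_space_iff.mp (h b hb)).resolve_left (mul_ne_zero hf hb0)) v
  rw [Finsupp.add_apply, v.ord_mul hf hb0] at this
  omega

end Fermat.Agent.MCurve.RR
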